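import Fermat.Statements.S37
import Fermat.Agent.Igusa.EichlerShimuraModL
import Fermat.Agent.Igusa.ReductionInputs
import Fermat.Agent.Igusa.TorsionInjective
import Fermat.Agent.Basic.FrobeniusExists

/-!
# S37

Eichler–Shimura congruence relation, in the prelude's packaged form SpecializationExists: for all
N and p, if the Hecke operators on J₀(N) commute, then at every prime ℓ not dividing Np there is a
good-reduction specialization of J₀(N) on which Frobenius F satisfies F² − T_ℓF + ℓ = 0.
-/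

set_option autoImplicit false
set_option synthInstance.maxHeartbeats 400000
open ModularCurve

namespace Fermat.Agent.S37

theorem result (N p : ℕ) [NeZero N] (hcomm : ModularCurve.HeckeOperatorsCommuteBar N) : letI := ModularCurve.heckeModuleBar N; ∀ (_ : SMulCommClass (AlgebraicClosure ℚ ≃ₐ[ℚ] AlgebraicClosure ℚ) ModularCurve.HeckeAlg (ModularCurve.JZero N)), ModularCurve.SpecializationExists (K := ℚ) (L := AlgebraicClosure ℚ) N p (ModularCurve.JZero N) := by
  letI := ModularCurve.heckeModuleBar N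
  intro hsc ℓ hℓ hℓNp A hA
  haveI : Fact ℓ.Prime := ⟨hℓ⟩
  have hℓN : ¬ ℓ ∣ N := fun h => hℓNp (h.mul_right p)
  have hℓp : ∀ n, ¬ ℓ ∣ p ^ n := fun n h => hℓNp ((hℓ.dvd_of_dvd_pow h).mul_left N)
  have h := FermatLib.Igusa.reductionInputsModL N hℓN A hA
  obtain ⟨g, hR⟩ := FermatLib.Igusa.exists_riemannInequalityAt_bar (N := N)
  obtain ⟨σ, hσ⟩ := FermatLib.Basic.exists_isFrobeniusAt hℓ A hA
  refine FermatLib.Igusa.exists_isSpecialization hR hcomm p hℓ hℓN hA h ?_ σ hσ hsc
  rintro x ⟨n, hn⟩ hx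
  obtain ⟨Pinf, Qinf, n₀, hS⟩ := FermatLib.Igusa.exists_smoothLattice N hℓN A hA
  exact FermatLib.Igusa.eq_zero_of_reductionModL_eq_zero_of_smoothLattice hℓ hA h hS (hℓp n) x hn hx

end Fermat.Agent.S37
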