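import Fermat.Agent.S01

/-!
# Fermat's Last Theorem in Mathlib's formulations
-/

set_option autoImplicit false

namespace FermatLib

/-- **Fermat's Last Theorem**, as stated in Mathlib. -/
theorem fermatLastTheorem : FermatLastTheorem :=
  fun n hn a b c ha hb hc => Fermat.Agent.S01.result n hn a b c
    (Nat.pos_of_ne_zero ha) (Nat.pos_of_ne_zero hb) (Nat.pos_of_ne_zero hc)

/-- Fermat's Last Theorem over the integers. -/
theorem fermatLastTheorem_int (n : ℕ) (hn : 3 ≤ n) : FermatLastTheoremWith ℤ n :=
  fermatLastTheoremFor_iff_int.1 (fermatLastTheorem n hn)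

/-- Fermat's Last Theorem over the rationals. -/
theorem fermatLastTheorem_rat (n : ℕ) (hn : 3 ≤ n) : FermatLastTheoremWith ℚ n :=
  fermatLastTheoremFor_iff_rat.1 (fermatLastTheorem n hn)

end FermatLib
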