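import Fermat.Statements.S19
import Fermat.Agent.Igusa.TorsionModel.JZeroModel
import Fermat.Agent.Igusa.TorsionModel.X0SpecData
import Fermat.Agent.Basic.FrobeniusExists

/-!
# S19

For a prime ℓ not dividing the level N and every k, the ℓᵏ-torsion of J₀(N) is,
Galois-equivariantly, the ℚ̄-points of a finite flat commutative group scheme (cocommutative Hopf
algebra) over ℤ₍ℓ₎.
-/

set_option autoImplicit false
open ModularCurve
open ModularCurve

namespace Fermat.Agent.S19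

theorem result
    (p : ℕ) [NeZero p] (ℓ : ℕ) [Fact ℓ.Prime] (hℓp : ¬ ℓ ∣ p) (k : ℕ) :
    ∃ (H : Type) (_ : CommRing H) (_ : HopfAlgebra (GaloisRep.ratLocalizedAt ℓ) H),
      Module.Finite (GaloisRep.ratLocalizedAt ℓ) H ∧ Module.Flat (GaloisRep.ratLocalizedAt ℓ) H ∧
      Coalgebra.IsCocomm (GaloisRep.ratLocalizedAt ℓ) H ∧
      ∃ e : WithConv (H →ₐ[GaloisRep.ratLocalizedAt ℓ] AlgebraicClosure ℚ) ≃
          ↥(Submodule.torsionBy ℤ (JZero p) ((ℓ : ℤ) ^ k)),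
        (∀ f g, e (f * g) = e f + e g) ∧
        ∀ (σ : AlgebraicClosure ℚ ≃ₐ[ℚ] AlgebraicClosure ℚ)
          (f g : WithConv (H →ₐ[GaloisRep.ratLocalizedAt ℓ] AlgebraicClosure ℚ)),
          (∀ h : H, g h = σ (f h)) → ((e g : JZero p)) = σ • (e f : JZero p) := by
  obtain ⟨A₀, hA₀⟩ := FermatLib.Basic.exists_liesOverPrime (Fact.out : ℓ.Prime)
  have h := FermatLib.Igusa.reductionInputsModL p hℓp A₀ hA₀
  obtain ⟨S, hact, -⟩ :=
    FermatLib.Igusa.TorsionModel.exists_x0SpecData (Fact.out : ℓ.Prime) hA₀ hℓp h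
  haveI : NeZero (ℓ ^ k) := ⟨pow_ne_zero k (Fact.out : ℓ.Prime).ne_zero⟩
  rw [← Nat.cast_pow]
  exact FermatLib.Igusa.TorsionModel.exists_hopfModel_jZero hℓp S (fun σ => by rw [hact]) (ℓ ^ k)

end Fermat.Agent.S19
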