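import Fermat.Statements.S11
import Fermat.Agent.EC.QuotientIsogeny
import Fermat.Agent.Descent.Eleven.TateNormalForm

/-!
# S11

The mod-p representation of the Frey curve has no Galois-stable cofixed line when p = 11.
-/

set_option autoImplicit false
open WeierstrassCurve WeierstrassCurve.Affine WeierstrassCurve.Affine.Point
open CuspForm ModularFormClass UpperHalfPlane
open FreyPackage

namespace Fermat.Agent.S11

theorem result (P : FreyPackage) (hp : P.p = 11) : ¬ HasGaloisStableCofixedLine (K := AlgebraicClosure ℚ) ℚ P.freyCurve P.p := by
  intro h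
  obtain ⟨W, -, -, -, T, hT⟩ := FermatLib.EC.frey_exists_quotient P h
  exact FermatLib.Descent.Eleven.addOrderOf_ne_eleven W T (hT.trans hp)

end Fermat.Agent.S11
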