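import Fermat.Statements.S12
import Fermat.Agent.S15
import Fermat.Agent.S14
import Fermat.Agent.Mazur.LegChain

/-!
# S12

The mod-p representation of the Frey curve has no Galois-stable cofixed line when p ≥ 17.
-/

set_option autoImplicit false
open WeierstrassCurve WeierstrassCurve.Affine WeierstrassCurve.Affine.Point
open CuspForm ModularFormClass UpperHalfPlane
open FreyPackage

namespace Fermat.Agent.S12

theorem result (P : FreyPackage) (hp : 17 ≤ P.p) : ¬ HasGaloisStableCofixedLine (K := AlgebraicClosure ℚ) ℚ P.freyCurve P.p :=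
  FermatLib.Mazur.frey_no_cofixedLine P (by omega)
    (fun W hΔ Q hfix hord h2Δ h2c h2 h3Δ h3c h3 _ hℓ hℓp hℓΔ hℓc A hA =>
      Fermat.Agent.S15.result P.pp (by simp; omega) W hΔ Q hfix hord h2Δ h2c h2 h3Δ h3c h3
        hℓ hℓp hℓΔ hℓc A hA)
    (haveI : Fact P.p.Prime := ⟨P.pp⟩; Fermat.Agent.S14.result (by omega))

end Fermat.Agent.S12
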