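import Fermat.Statements.S09
import Fermat.Agent.S12
import Fermat.Agent.Mazur.FreyIrreducible

/-!
# S09

Mazur: the mod-p Galois representation of the Frey curve is irreducible.
-/

set_option autoImplicit false
open WeierstrassCurve WeierstrassCurve.Affine WeierstrassCurve.Affine.Point
open CuspForm ModularFormClass UpperHalfPlane
open FreyPackage

namespace Fermat.Agent.S09

theorem result (P : FreyPackage) : GaloisRepIsIrreducible (K := AlgebraicClosure ℚ) ℚ P.freyCurve P.p :=
  FermatLib.Mazur.frey_irreducible_of P (Fermat.Agent.S12.result P)

end Fermat.Agent.S09
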