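import Fermat.Statements.S01
import Fermat.Agent.Route.Main

/-!
# S01

Fermat's Last Theorem, elementary form: for n ≥ 3 and positive integers a, b, c, aⁿ + bⁿ ≠ cⁿ.
The proof is assembled in `Fermat.Agent.Route.Main`.
-/

set_option autoImplicit false

namespace Fermat.Agent.S01

theorem result (n : ℕ) (hn : 3 ≤ n) (a b c : ℕ) (ha : 0 < a) (hb : 0 < b) (hc : 0 < c) : a ^ n + b ^ n ≠ c ^ n :=
  FermatLib.Route.fermat n hn a b c ha hb hc

end Fermat.Agent.S01
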