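import Fermat.Statements.S02

/-!
# S02

A solution of aᵖ + bᵖ = cᵖ in nonzero integers for a prime p ≥ 5 yields a Frey package.
-/

set_option autoImplicit false
open FreyPackage

namespace Fermat.Agent.S02

/-- A coprime solution with `a` odd and `b` even gives a Frey package (negate if necessary). -/
theorem frey_of_odd_even {a b c : ℤ} {p : ℕ} (ha : a ≠ 0) (hb : b ≠ 0) (hc : c ≠ 0)
    (pp : p.Prime) (hp5 : 5 ≤ p) (H : a ^ p + b ^ p = c ^ p) (hg : gcd a b = 1)
    (haodd : Odd a) (hbeven : Even b) : Nonempty FreyPackage := by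
  have hp : Odd p := pp.odd_of_ne_two (by omega)
  have hb2 : (b : ZMod 2) = 0 :=
    (ZMod.intCast_zmod_eq_zero_iff_dvd b 2).2 hbeven.two_dvd
  rcases Int.odd_iff.1 haodd with h2
  rcases (show a % 4 = 1 ∨ a % 4 = 3 by omega) with h | h
  · refine ⟨⟨-a, -b, -c, neg_ne_zero.2 ha, neg_ne_zero.2 hb, neg_ne_zero.2 hc, p, pp, hp5, ?_,
      ?_, ?_, ?_⟩⟩
    · rw [hp.neg_pow, hp.neg_pow, hp.neg_pow, ← H]; ring
    · change (Int.gcd (-a) (-b) : ℤ) = 1
      rw [Int.neg_gcd, Int.gcd_neg]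
      exact hg
    · rw [show (3 : ZMod 4) = ((3 : ℤ) : ZMod 4) by norm_num,
        ZMod.intCast_eq_intCast_iff']
      push_cast
      omega
    · simp [hb2]
  · refine ⟨⟨a, b, c, ha, hb, hc, p, pp, hp5, H, hg, ?_, hb2⟩⟩
    rw [show (3 : ZMod 4) = ((3 : ℤ) : ZMod 4) by norm_num,
      ZMod.intCast_eq_intCast_iff']
    push_cast
    omega

/-- A coprime solution gives a Frey package (permute so that the even one is `b`). -/
theorem frey_of_coprime {a b c : ℤ} {p : ℕ} (ha : a ≠ 0) (hb : b ≠ 0) (hc : c ≠ 0)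
    (pp : p.Prime) (hp5 : 5 ≤ p) (H : a ^ p + b ^ p = c ^ p) (hg : gcd a b = 1) :
    Nonempty FreyPackage := by
  have hp : Odd p := pp.odd_of_ne_two (by omega)
  have hp0 : p ≠ 0 := pp.pos.ne'
  have notboth : ¬ (Even a ∧ Even b) := by
    rintro ⟨h1, h2⟩
    have : (2 : ℤ) ∣ gcd a b := dvd_gcd h1.two_dvd h2.two_dvd
    rw [hg] at this
    omega
  rcases Int.even_or_odd b with hbe | hbo
  · exact frey_of_odd_even ha hb hc pp hp5 H hg
      (Int.not_even_iff_odd.1 fun h => notboth ⟨h, hbe⟩) hbe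
  rcases Int.even_or_odd a with hae | hao
  · exact frey_of_odd_even hb ha hc pp hp5 (by rw [← H, add_comm]) (by rw [gcd_comm, hg]) hbo hae
  have hce : Even c := by
    have : Even (c ^ p) := H ▸ (hao.pow (n := p)).add_odd (hbo.pow (n := p))
    exact ((Int.even_pow' hp0).1 this)
  have H' : (-b) ^ p + c ^ p = a ^ p := by rw [hp.neg_pow, ← H]; ring
  have hg' : gcd (-b) c = 1 := by
    have h1 : gcd b c = 1 := by
      rw [← gcdab_eq_gcdac pp.pos (show b ^ p + a ^ p = c ^ p by rw [← H, add_comm]), gcd_comm, hg]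
    change (Int.gcd (-b) c : ℤ) = 1
    rw [Int.neg_gcd]
    exact h1
  exact frey_of_odd_even (neg_ne_zero.2 hb) hc ha pp hp5 H' hg' hbo.neg hce

theorem result (a b c : ℤ) (ha : a ≠ 0) (hb : b ≠ 0) (hc : c ≠ 0) (p : ℕ) (pp : p.Prime) (hp5 : 5 ≤ p) (H : a ^ p + b ^ p = c ^ p) : Nonempty FreyPackage := by
  obtain ⟨a', ha'⟩ := gcd_dvd_left a b
  obtain ⟨b', hb'⟩ := gcd_dvd_right a b
  have hg : gcd a b ≠ 0 := fun h => ha ((gcd_eq_zero_iff a b).1 h).1
  have hdc : gcd a b ∣ c := by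
    rw [← Int.pow_dvd_pow_iff pp.pos.ne', ← H]
    exact dvd_add (pow_dvd_pow_of_dvd (gcd_dvd_left a b) p)
      (pow_dvd_pow_of_dvd (gcd_dvd_right a b) p)
  obtain ⟨c', hc'⟩ := hdc
  have H' : a' ^ p + b' ^ p = c' ^ p := by
    apply mul_left_cancel₀ (pow_ne_zero p hg)
    rw [mul_add, ← mul_pow, ← mul_pow, ← mul_pow, ← ha', ← hb', ← hc', H]
  have hcop : gcd a' b' = 1 := by
    have h2 : gcd (gcd a b * a') (gcd a b * b') = normalize (gcd a b) * gcd a' b' :=
      gcd_mul_left _ _ _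
    rw [← ha', ← hb', normalize_gcd] at h2
    exact (mul_eq_left₀ hg).1 h2.symm
  refine frey_of_coprime ?_ ?_ ?_ pp hp5 H' hcop
  · rintro rfl; simp at ha'; exact ha ha'
  · rintro rfl; simp at hb'; exact hb hb'
  · rintro rfl; simp at hc'; exact hc hc'

end Fermat.Agent.S02
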