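import Fermat.Statements.S03
import Fermat.Agent.Route.Main

/-!
# S03

No Frey package exists (Fermat's Last Theorem for prime exponents p ≥ 5).
-/

set_option autoImplicit false
open FreyPackage

namespace Fermat.Agent.S03

theorem result (P : FreyPackage) : False :=
  FermatLib.Route.no_freyPackage P

end Fermat.Agent.S03
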