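import Fermat.Statements.S06
import Fermat.Agent.Route.Modularity

/-!
# S06

The mod-p representation of the Frey curve is modular of some level N that is a conductor level of
the Frey package.
-/

set_option autoImplicit false
open WeierstrassCurve WeierstrassCurve.Affine WeierstrassCurve.Affine.Point
open CuspForm ModularFormClass UpperHalfPlane
open FreyPackage

namespace Fermat.Agent.S06

theorem result (P : FreyPackage) : ∃ N : ℕ, P.IsConductorLevel N ∧ P.ModularRepOfLevel N :=
  FermatLib.Basic.freyConductorLevel_of_exactConductor P (FermatLib.Route.freyExactConductor P)

end Fermat.Agent.S06
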