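import Fermat.Statements.S16
import Fermat.Agent.Mazur.EisensteinIndex
import Fermat.Agent.Mazur.EisensteinUpper

/-!
# S16

For every prime p, the index of the image of the Eisenstein ideal in the integral Hecke algebra of
weight 2 and level p equals (p−1)/gcd(p−1, 12).
-/

set_option autoImplicit false
open ModularCurve CuspForm
open ModularCurve

namespace Fermat.Agent.S16

theorem result
    (p : ℕ) [Fact p.Prime] :
    Nat.card (↥(heckeLatticeAlgebra p ∅) ⧸
        Ideal.map ((latticeRestrictHom p ∅).toRingHom.comp (heckeEvalForms p 2))
          (eisensteinIdeal p)) =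
      eisensteinNumerator p := by
  exact FermatLib.Mazur.natCard_quotient_eisenstein p (FermatLib.Mazur.eisensteinNumerator_mem p)

end Fermat.Agent.S16
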