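import Fermat.Statements.S20
import Fermat.Agent.Modular.S2Formula

/-!
# S20

dim S₂(Γ₀(N)) equals the classical genus formula for X₀(N).
-/

set_option autoImplicit false
open CuspForm

namespace Fermat.Agent.S20

theorem result (N : ℕ) [NeZero N] :
    (Module.finrank ℂ (CuspForm (CongruenceSubgroup.Gamma0 N) 2) : ℚ) = ModularCurve.genusFormula N := by
  exact FermatLib.Modular.finrank_cuspForm_two_eq_genusFormula N

end Fermat.Agent.S20
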