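import Fermat.Statements.S21
import Fermat.Agent.Modular.EichlerShimuraRange

/-!
# S21

Eichler–Shimura: the period map of level N is injective and its image is exactly the space of
parabolic cohomology classes of Γ₀(N).
-/

set_option autoImplicit false
open ModularCurve

namespace Fermat.Agent.S21

theorem result (N : ℕ) [NeZero N] :
    Function.Injective (ModularCurve.periodHomPair N)
      ∧ LinearMap.range (ModularCurve.periodHomPair N)
          = ModularCurve.Period.parabolicHoms ℂ (CongruenceSubgroup.Gamma0 N) ℂ :=
  ⟨FermatLib.Modular.periodHomPair_injective, FermatLib.Modular.range_periodHomPair_eq N⟩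

end Fermat.Agent.S21
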