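import Fermat.Statements.S26
import Fermat.Agent.AV.Tors.Count.Upper
import Fermat.Agent.AV.Tors.Count.Lower
import Fermat.Agent.AV.Tors.Count.Assembly

/-!
# S26

A commutative group scheme that is an abelian scheme of relative dimension g over an algebraically
closed field has exactly n^{2g} n-torsion points when n is invertible in the field.
-/

set_option autoImplicit false
set_option autoImplicit false
open CategoryTheory CategoryTheory.Limits AlgebraicGeometry NeronModelInfra GoodReductionJacobian
universe u
open GoodReductionJacobian GoodReductionJacobian.RelativeGroupLaw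

namespace Fermat.Agent.S26

theorem result
    (K : Type u) [Field K] [IsAlgClosed K] {A : Scheme.{u}} (f : A ⟶ Spec (CommRingCat.of K))
    (L : RelativeGroupLaw K f) (hc : L.IsCommutative) (hA : AbelianSchemePropertyBundle K f)
    (g : ℕ) [SmoothOfRelativeDimension g f] (n : ℕ) (hn : (n : K) ≠ 0) :
    Nat.card {x : SchemeHomOver (𝟙 (Spec (CommRingCat.of K))) f //
        L.IsTorsionPoint (𝟙 (Spec (CommRingCat.of K))) n x} = n ^ (2 * g) := by
  haveI := hA.proper
  haveI := FermatLib.AV.Tors.isIntegral_of_propertyBundle f hA g
  let X : FermatLib.AV.Tors.AVData K g := { X := A, str := f, law := L, comm := hc }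
  obtain ⟨_, t, ht⟩ := FermatLib.AV.Tors.exists_isCoordinates X
    (GoodReductionJacobian.RelativeGroupLaw.one X.law (X.base K))
  exact FermatLib.AV.Tors.natCard_torsion_of_bounds X hn
    (fun hg => FermatLib.AV.Tors.exists_upper_const hg ht)
    (fun hg => FermatLib.AV.Tors.exists_lower_const hg ht)

end Fermat.Agent.S26
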