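import Fermat.Statements.S28
import Fermat.Agent.Igusa.S28Scheme

/-!
# S28

Igusa: for a prime ℓ not dividing N, the base change of the Igusa model of X₀(N) over ℤ₍ℓ₎ to any
field of characteristic ℓ is integral.
-/

set_option autoImplicit false
open AlgebraicGeometry CategoryTheory CategoryTheory.Limits ModularCurve ModularCurve.IgusaScheme
noncomputable section
set_option autoImplicit false
open ModularCurve ModularCurve.IgusaScheme

namespace Fermat.Agent.S28

set_option maxHeartbeats 4000000 in
set_option synthInstance.maxHeartbeats 400000 in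
theorem result
    (N : ℕ) [NeZero N] (ℓ : ℕ) [Fact ℓ.Prime] (hℓN : ¬ ℓ ∣ N)
    (K : Type) [Field K] [CharP K ℓ] [Algebra ↥(GaloisRep.ratLocalizedAt ℓ) K] :
    IsIntegral ↑(pullback (igusaTo N ℓ)
      (Spec.map (CommRingCat.ofHom (algebraMap ↥(GaloisRep.ratLocalizedAt ℓ) K)))) :=
  FermatLib.Igusa.isIntegral_pullback_igusaTo N ℓ K hℓN

end Fermat.Agent.S28
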