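import Fermat.Statements.S29
import Fermat.Agent.Galois.ResidualAttachedFinal
import Fermat.Agent.Galois.AttachmentProved

/-!
# S29

A normalised weight-2 eigenform on Γ₀(N) has, for every prime p and every residue map of ℤ̄ to a
field of characteristic p, an attached mod-p Galois representation, unramified at all primes not
dividing Np.
-/

set_option autoImplicit false
open CuspForm CuspForm.IsNormalizedEigenform

namespace Fermat.Agent.S29

theorem result
    {N : ℕ} {g : CuspForm (CongruenceSubgroup.Gamma0 N) 2} (hg : g.IsNormalizedEigenform)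
    {p : ℕ} (hp : p.Prime) {k : Type} [Field k] [CharP k p]
    (φ : integralClosure ℤ ℂ →+* k) :
    ∃ ρ : ResidualGaloisRep k, ρ.IsAttachedTo g φ ∧
      ∀ ℓ : ℕ, ℓ.Prime → ¬ ℓ ∣ N * p → ρ.IsUnramifiedAt ℓ := by
  exact FermatLib.Galois.exists_residual_attached_of_padicAttachment FermatLib.Galois.padicAttachment hg hp φ

end Fermat.Agent.S29
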