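import Fermat.Statements.S33
import Fermat.Agent.Galois.Ordinary.FromSheets
import Fermat.Agent.Igusa.MonoModular
import Fermat.Agent.Igusa.MonoTopLift
import Fermat.Agent.Igusa.MonoTopTop2

/-!
# S33

In a Hecke–Galois datum of level N away from S, with p odd and p exactly dividing N, the Galois
representation is ordinary at p provided its residual representation is.
-/

set_option autoImplicit false
variable {p : ℕ} {N : ℕ} [NeZero N] {S : Finset ℕ}
  {𝒪 : Type} [CommRing 𝒪] [IsDomain 𝒪] [IsDiscreteValuationRing 𝒪]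
  [IsAdicComplete (IsLocalRing.maximalIdeal 𝒪) 𝒪]
  {θ : CuspForm.heckeAlgebra N 2 (↑S : Set ℕ) →+* IsLocalRing.ResidueField 𝒪}
  {T : Type} [CommRing T] [IsLocalRing T] [IsNoetherianRing T]
  [IsAdicComplete (IsLocalRing.maximalIdeal T) T] [Algebra 𝒪 T] [IsLocalHom (algebraMap 𝒪 T)]
  [Module.Finite 𝒪 T] [Module.Free 𝒪 T]
open CuspForm CuspForm.HeckeGaloisRepDatum

namespace Fermat.Agent.S33

theorem result
    [Finite (IsLocalRing.ResidueField 𝒪)] [CharZero 𝒪]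
    (hp : p.Prime) (hp2 : p ≠ 2) (hp𝒪 : (p : 𝒪) ∈ IsLocalRing.maximalIdeal 𝒪) (hN : p ∣ N ∧ ¬ p ^ 2 ∣ N)
    (hNS : ∀ q : ℕ, q.Prime → q ∣ N → q ∈ S)
    (H : CuspForm.HeckeGaloisRepDatum N (↑S : Set ℕ) 𝒪 θ T)
    (hres : (GaloisRepAdic.ofResidualGaloisRep H.ρ.residual).IsOrdinaryAt p) :
    H.ρ.IsOrdinaryAt p := by
  haveI : Fact p.Prime := ⟨hp⟩
  refine FermatLib.Galois.Ordinary.isOrdinaryAt_of_kernel hp2 hp𝒪 hN hNS (fun M _ _ _ hM => ?_) H hres
  refine FermatLib.Galois.Ordinary.hasReductionKernel_of_sheets hM fun A hA => ?_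
  haveI := FermatLib.Igusa.Mono.monoResidue_charP (q := p) hA
  exact ⟨FermatLib.Igusa.Mono.monoDatum hM hA (FermatLib.Igusa.Mono.mono_lift_exists hM hA)
    (FermatLib.Igusa.Mono.mono_top_exists hM hA), rfl, rfl, rfl⟩

end Fermat.Agent.S33
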