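import Fermat.Statements.S42
import Fermat.Agent.Galois.AttachmentProved
import Fermat.Agent.Galois.ResidualAttachedFinal

/-!
# S42

For the Frey package's prime p and every level M > 0, the prelude property
EigenformResidualAttachmentAt M holds: every weight-2 normalised eigenform on Γ₀(M) and maximal
ideal over p has an attached 2-dimensional residual Galois representation with the expected
Frobenius traces and determinants, factoring through a finite Galois extension together with the
Frey representation.
-/

set_option autoImplicit false
open FreyPackage

namespace Fermat.Agent.S42

theorem result (P : FreyPackage) :
    ∀ M : ℕ, 0 < M → P.EigenformResidualAttachmentAt M := by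
  exact fun M _ => FermatLib.Galois.eigenformResidualAttachmentAt_of_padicAttachment
    FermatLib.Galois.padicAttachment P M

end Fermat.Agent.S42
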