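import Fermat.Statements.S43
import Fermat.Agent.Route.LevelLowering

/-!
# S43

One of the accepted forms (S38, S43) of: Ribet's level lowering: for an odd prime p and a
semistable curve with irreducible mod-p representation (p² points of p-torsion, finite image) that
is residually modular of a squarefree level M and unramified at a prime q ≠ p dividing M, it is
residually modular of level M/q — or the Frey-curve form: an odd prime q ≠ p dividing a conductor
level N at which the Frey representation is unramified can be removed from the level.
-/

set_option autoImplicit false
open WeierstrassCurve WeierstrassCurve.Affine WeierstrassCurve.Affine.Point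
open CuspForm ModularFormClass UpperHalfPlane
open FreyPackage

namespace Fermat.Agent.S43

theorem result (P : FreyPackage) {N q : ℕ} (hcond : P.IsConductorLevel N) (hq : q.Prime) (hq2 : q ≠ 2) (hqp : q ≠ P.p) (hqN : q ∣ N) (hirr : GaloisRepIsIrreducible (K := AlgebraicClosure ℚ) ℚ P.freyCurve P.p) (hmod : P.ModularRepOfLevel N) (hunr : P.GaloisRepUnramifiedAt q) : ∃ M : ℕ, M ∣ N ∧ ¬ q ∣ M ∧ P.ModularRepOfLevel M :=
  FermatLib.Route.exists_level_not_dvd P hcond hq hq2 hirr hmod

end Fermat.Agent.S43
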