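import Fermat.Statements.S44
import Fermat.Agent.Galois.MazurP.AtP

/-!
# S44

One of the accepted forms (S39, S40, S44) of: Mazur–Ribet: for an odd prime p and a curve
semistable at p with irreducible mod-p representation that is residually modular of a level M
exactly divisible by p, if the representation is peu ramifiée at p — or if the curve has good
reduction at p — it is residually modular of level M/p; or the Frey-curve form: p can be removed
from a conductor level.
-/

set_option autoImplicit false
open WeierstrassCurve WeierstrassCurve.Affine WeierstrassCurve.Affine.Point
open CuspForm ModularFormClass UpperHalfPlane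
open FreyPackage

namespace Fermat.Agent.S44

theorem result (P : FreyPackage) {N : ℕ} (hcond : P.IsConductorLevel N) (hpN : P.p ∣ N) (hirr : GaloisRepIsIrreducible (K := AlgebraicClosure ℚ) ℚ P.freyCurve P.p) (hmod : P.ModularRepOfLevel N) : ∃ M : ℕ, M ∣ N ∧ ¬ P.p ∣ M ∧ P.ModularRepOfLevel M :=
  FermatLib.MazurP.levelLoweringAtP_of_principle FermatLib.MazurP.principleAtP
    FermatLib.MazurP.atPSpecializationInput P hcond hpN hirr hmod

end Fermat.Agent.S44
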