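import Fermat.Statements.S46
import Fermat.Agent.Route.Modularity
import Fermat.Agent.Extra.S46Realization

/-!
# S46

Langlands-Tunnell shape for semistable curves with irreducible mod-3 representation (alternate of
S50): the depleted eigenform at level `N * N` realises the `chiNegThree` eigensystem.
-/

set_option autoImplicit false
open WeierstrassCurve CuspForm EisensteinWeightOne FormalHecke
open FLT FLT.No2BridgeWiring

namespace Fermat.Agent.S46

theorem result :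
    ∀ W : WeierstrassCurve ℤ, W.Δ ≠ 0 → W.IsSemistableModel → W.ModRepIsIrreducible 3 →
      ∃ (N : ℕ) (_ : NeZero N) (a : ℕ → ℤ),
        CuspForm.HasIntegralBasis N ∧
        FormalHecke.IsEigensystem
          (fun ℓ => if ℓ ∣ N then 0 else ((chiNegThree ℓ : ℤ) : ℤ)) a ∧
        CuspForm.IsLatticeRealized N a ∧
        (∀ q : ℕ, q.Prime → q ≠ 3 → ¬ q ^ 3 ∣ N) ∧
        ∀ ℓ : ℕ, ℓ.Prime → W.IsGoodPrimeFor ℓ → ¬ ℓ ∣ N → ℓ ≠ 3 →
          (3 : ℤ) ∣ (a ℓ - W.apOfModel ℓ) := by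
  intro W hΔ hW _
  obtain ⟨N, hN0, hsq, hbad, f, hf, hap⟩ :=
    FermatLib.Route.exactConductor_of_semistable hΔ hW
  have : NeZero N := ⟨hN0.ne'⟩
  have : NeZero (N * N) := ⟨mul_ne_zero hN0.ne' hN0.ne'⟩
  -- deplete at the bad primes: every prime coefficient becomes an integer, at level `N * N`
  obtain ⟨g, hg, hgc⟩ := FermatLib.Modular.Newforms.exists_eigenform_depleted hf N.primeFactors
    (fun r hr => ⟨Nat.prime_of_mem_primeFactors hr, Nat.dvd_of_mem_primeFactors hr⟩) (N * N)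
    (by rw [Nat.prod_primeFactors_of_squarefree hsq])
  have hgood : ∀ ℓ : ℕ, ℓ.Prime → ¬ ℓ ∣ N →
      ModularFormClass.qCoeff ⇑g ℓ = (W.apOfModel ℓ : ℂ) := fun ℓ hℓ h => by
    rw [hgc ℓ hℓ, if_neg (fun hm => h (Nat.dvd_of_mem_primeFactors hm))]
    exact hap ℓ hℓ (fun hd => h ((hbad ℓ hℓ).2 hd)) h
  obtain ⟨a, ha, hreal, hap'⟩ := FermatLib.Extra.S46.exists_realized_eigensystem hg fun p hp => by
    by_cases h : p ∣ N
    · exact ⟨0, by rw [hgc p hp, if_pos (Nat.mem_primeFactors.2 ⟨hp, h, hN0.ne'⟩), Int.cast_zero]⟩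
    · exact ⟨_, hgood p hp h⟩
  refine ⟨N * N, inferInstance, a, FermatLib.Modular.hasIntegralBasis (N * N), ha, hreal,
    fun q hq _ h => ?_, fun ℓ hℓ _ hℓN _ => ?_⟩
  · by_cases hqN : q ∣ N
    · obtain ⟨k, rfl⟩ := hqN
      have hqk : q ∣ k * k := Nat.dvd_of_mul_dvd_mul_left (pow_pos hq.pos 2)
        (by rwa [show q * k * (q * k) = q ^ 2 * (k * k) by ring, pow_succ] at h)
      exact hq.not_isUnit (hsq q (mul_dvd_mul_left q ((or_self_iff).1 (hq.dvd_mul.1 hqk))))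
    · exact hqN ((or_self_iff).1 (hq.dvd_mul.1 (dvd_trans (dvd_pow_self q (by norm_num)) h)))
  · have hz : a ℓ = W.apOfModel ℓ := Int.cast_injective (α := ℂ)
      ((hap' ℓ hℓ).trans (hgood ℓ hℓ (fun h => hℓN (h.mul_left N))))
    simp [hz]

end Fermat.Agent.S46
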