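import Fermat.Statements.S50
import Fermat.Agent.Route.Modularity

/-!
# S50

One of the accepted forms (S46, S47, S50) of: Langlands–Tunnell, three accepted forms: (i) a
semistable curve with irreducible mod-3 representation admits a weight-one-type integral Hecke
eigensystem with character χ₋₃, lattice-realised in weight-2 forms of a level that is cube-free
away from 3, congruent to the curve's a_ℓ mod 3; (ii) a surjective ρ̄ : G_ℚ → GL₂(𝔽₃) with mod-3
cyclotomic determinant, together with a lift section to GL₂(ℤ[√−2]), is the trace reduction of a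
realised weight-one eigensystem with character χ₋₃; (iii) a semistable curve with irreducible
mod-3 representation is residually modular at 3 of some positive level, cube-free away from 3,
with no inertia-fixed 3-torsion when 9 divides the level.
-/

set_option autoImplicit false
set_option autoImplicit false
open WeierstrassCurve WeierstrassCurve.Affine WeierstrassCurve.Affine.Point
open scoped WeierstrassCurve.Affine
open WeierstrassCurve

namespace Fermat.Agent.S50

theorem result
    (W : WeierstrassCurve ℤ) (hΔ : W.Δ ≠ 0) (hW : W.IsSemistableModel)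
    (h3 : W.ModRepIsIrreducible 3) :
    ∃ M : ℕ, 0 < M ∧ W.IsResiduallyModularOfLevel 3 M ∧
      (∀ q : ℕ, q.Prime → q ≠ 3 → ¬ q ^ 3 ∣ M) ∧
      (3 ^ 2 ∣ M →
        ∀ A : ValuationSubring (AlgebraicClosure ℚ), A.LiesOverPrime 3 →
          ∀ x : Submodule.torsionBy ℤ
              ((W.map (Int.castRingHom ℚ))⁄(AlgebraicClosure ℚ)).Point (3 : ℕ),
            (∀ σ ∈ A.inertiaSubgroupIn ℚ, σ • x = x) → x = 0) := by
  -- the conductor itself is such a level, as it is squarefree
  obtain ⟨N, hN, hsq, hbad, hmod⟩ := FermatLib.Route.exactConductor_of_semistable hΔ hW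
  have hno : ∀ q : ℕ, q.Prime → ¬ q * q ∣ N := Nat.squarefree_iff_prime_squarefree.1 hsq
  refine ⟨N, hN, FermatLib.Basic.isResiduallyModularOfLevel_of_congruent Nat.prime_three hbad hmod
    (fun _ _ _ _ _ => by simp), fun q hq _ hd => hno q hq (dvd_trans ⟨q, by ring⟩ hd), ?_⟩
  exact fun h9 => absurd (by simpa [pow_two] using h9) (hno 3 Nat.prime_three)

end Fermat.Agent.S50
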