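import Fermat.Statements.S51
import Fermat.Agent.Descent.ModThreeOrFive
import Fermat.Agent.Descent.RankZero15

/-!
# S51

For a semistable integral Weierstrass curve, at least one of the mod-3 and mod-5 representations
is irreducible.
-/

set_option autoImplicit false
open WeierstrassCurve WeierstrassCurve.Affine WeierstrassCurve.Affine.Point
open CuspForm ModularFormClass UpperHalfPlane
open WeierstrassCurve

namespace Fermat.Agent.S51

theorem result (W : WeierstrassCurve ℤ) (hΔ : W.Δ ≠ 0) (hW : W.IsSemistableModel) : W.ModRepIsIrreducible 3 ∨ W.ModRepIsIrreducible 5 := by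
  exact FermatLib.Descent.modRepIsIrreducible_three_or_five
    FermatLib.Descent.rankZero15 W hΔ hW

end Fermat.Agent.S51
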