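import Fermat.Statements.S54
import Fermat.Agent.Basic.FrobeniusExists

/-!
# S54

R ↠ T: a universal deformation ring maps surjectively onto the coefficient ring T of any
Hecke–Galois datum whose representation satisfies the deformation condition and reduces to the
given residual representation, compatibly with the representations.
-/

set_option autoImplicit false
open GaloisRep GaloisRep.DeformationRingData

namespace Fermat.Agent.S54

open Polynomial in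
theorem result {𝒪 : Type} [CommRing 𝒪] [IsDomain 𝒪] [IsDiscreteValuationRing 𝒪] [IsAdicComplete (IsLocalRing.maximalIdeal 𝒪) 𝒪] {ρbar : ResidualGaloisRep (IsLocalRing.ResidueField 𝒪)} {𝒟 : ∀ ⦃A : Type⦄ [CommRing A] [IsLocalRing A] [Algebra 𝒪 A], GaloisRepAdic A → Prop} (D : GaloisRep.DeformationRingData 𝒪 ρbar 𝒟) {N : ℕ} [NeZero N] {S : Set ℕ} {θ : CuspForm.heckeAlgebra N 2 S →+* IsLocalRing.ResidueField 𝒪} {T : Type} [CommRing T] [IsLocalRing T] [IsNoetherianRing T] [IsAdicComplete (IsLocalRing.maximalIdeal T) T] [Algebra 𝒪 T] [IsLocalHom (algebraMap 𝒪 T)] [Module.Finite 𝒪 T] [Module.Free 𝒪 T] (H : CuspForm.HeckeGaloisRepDatum N S 𝒪 θ T) (hS : ∀ q : ℕ, q.Prime → q ∣ N → q ∈ S) (h𝒟 : 𝒟 H.ρ) (hres : H.ρ.residual.IsEquiv (ρbar.baseChangeAlong (IsLocalRing.ResidueField.map (algebraMap 𝒪 T)))) : ∃ φ : D.R →ₐ[𝒪] T, Function.Surjective φ ∧ ∃ hφ : IsLocalHom (φ : D.R →+* T), (D.ρ.baseChangeAlong (φ : D.R →+*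 T) hφ).IsEquiv H.ρ := by
  obtain ⟨φ, ⟨hφ, hequiv⟩, -⟩ := D.universal T H.residue_surjective H.ρ h𝒟 hres
  refine ⟨φ, ?_, hφ, hequiv⟩
  have hT : ∀ (ℓ : ℕ) (hℓ : ℓ.Prime) (hℓN : ¬ ℓ ∣ N) (hℓS : ℓ ∉ S),
      H.π (CuspForm.heckeAlgebra.T hℓ hℓN hℓS) ∈ φ.range := by
    intro ℓ hℓ hℓN hℓS
    obtain ⟨A, hA⟩ := FermatLib.Basic.exists_liesOverPrime hℓ
    obtain ⟨σ, hσ⟩ := FermatLib.Basic.exists_isFrobeniusAt hℓ A hA
    have hc := H.charpoly_frob ℓ hℓ hℓN hℓS A hA σ hσ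
    obtain ⟨e⟩ := hequiv
    have hconj : e.toLinearEquiv.conj ((D.ρ.baseChangeAlong (φ : D.R →+* T) hφ).ρ σ) = H.ρ.ρ σ := by
      refine LinearMap.ext fun x => ?_
      rw [LinearEquiv.conj_apply_apply, e.map_apply, LinearEquiv.apply_symm_apply]
    have hmap : (D.ρ.ρ σ).charpoly.map (φ : D.R →+* T) = (H.ρ.ρ σ).charpoly := by
      rw [← hconj, LinearEquiv.charpoly_conj]
      letI : Algebra D.R T := (φ : D.R →+* T).toAlgebra
      exact ((D.ρ.ρ σ).charpoly_baseChange (A := T)).symm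
    have hcoeff := congrArg (fun p => p.coeff 1) (hmap.trans hc)
    simp only [coeff_map, coeff_add, coeff_sub, coeff_X_pow, coeff_C_mul, coeff_X_one,
      coeff_C] at hcoeff
    exact ⟨-(D.ρ.ρ σ).charpoly.coeff 1, by
      rw [map_neg]
      simpa using congrArg Neg.neg hcoeff⟩
  have hrange : ∀ t, H.π t ∈ φ.range := by
    rintro ⟨t, ht⟩
    induction ht using Algebra.adjoin_induction with
    | mem x hx =>
      rcases hx with ⟨ℓ, hℓ, hℓN, hℓS, rfl⟩ | ⟨q, hqN, hq, hqS, rfl⟩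
      · exact hT ℓ hℓ hℓN hℓS
      · exact absurd (hS q hq hqN) hqS
    | algebraMap n =>
      rw [show H.π ⟨algebraMap ℤ _ n, _⟩ = (n : T) from
        eq_intCast (H.π.comp (algebraMap ℤ (CuspForm.heckeAlgebra N 2 S))) n]
      exact intCast_mem _ n
    | add x y hx hy ihx ihy =>
      rw [show H.π ⟨x + y, _⟩ = H.π ⟨x, hx⟩ + H.π ⟨y, hy⟩ from map_add H.π ⟨x, hx⟩ ⟨y, hy⟩]
      exact add_mem ihx ihy
    | mul x y hx hy ihx ihy =>
      rw [show H.π ⟨x * y, _⟩ = H.π ⟨x, hx⟩ * H.π ⟨y, hy⟩ from map_mul H.π ⟨x, hx⟩ ⟨y, hy⟩]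
      exact mul_mem ihx ihy
  have htop : φ.range = ⊤ := by
    refine top_le_iff.mp ?_
    rw [← H.adjoin_range_π, Algebra.adjoin_le_iff]
    rintro _ ⟨t, rfl⟩
    exact hrange t
  exact (AlgHom.range_eq_top φ).mp htop

end Fermat.Agent.S54
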