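import Fermat.Statements.S56
import Fermat.Agent.MLT.TW56.Assembly

/-!
# S56

Taylor–Wiles primes: for an odd prime p and an absolutely irreducible residual representation ρ̄
with cyclotomic determinant, eigenvalues in the residue field and irreducible restriction to every
index-2 subgroup, there is r such that for every n there are r distinct primes q ≡ 1 mod p^{n+1}
outside S with distinct ρ̄-Frobenius eigenvalues for which the deformation ring with the enlarged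
ramification set is a quotient of a power-series ring in r variables — both for the
strict-ordinary and for the flat condition at p.
-/

set_option autoImplicit false
set_option autoImplicit false
open Polynomial IsLocalRing
open ResidualGaloisRep

namespace Fermat.Agent.S56

theorem result
    {𝒪 : Type} [CommRing 𝒪] [IsDomain 𝒪] [IsDiscreteValuationRing 𝒪]
    [IsAdicComplete (maximalIdeal 𝒪) 𝒪] [Finite (ResidueField 𝒪)]
    (p : ℕ) [Fact p.Prime] (hp2 : p ≠ 2) (hp𝒪 : (p : 𝒪) ∈ maximalIdeal 𝒪)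
    (ρbar : ResidualGaloisRep (ResidueField 𝒪))
    (habs : ρbar.IsAbsolutelyIrreducible)
    (hdet : (GaloisRepAdic.ofResidualGaloisRep ρbar).DetIsCyclotomic p)
    (hsplit : ∀ σ : AlgebraicClosure ℚ ≃ₐ[ℚ] AlgebraicClosure ℚ,
      ∃ α β : ResidueField 𝒪, LinearMap.charpoly (ρbar.ρ σ) = (X - C α) * (X - C β))
    (hTW : ∀ (K : Type) [Field K] [Algebra (ResidueField 𝒪) K]
      (G : Subgroup (AlgebraicClosure ℚ ≃ₐ[ℚ] AlgebraicClosure ℚ)), G.index = 2 →
      ∀ V : Submodule K (ρbar.baseChange K).V,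
        (∀ σ ∈ G, ∀ x ∈ V, (ρbar.baseChange K).ρ σ x ∈ V) → V = ⊥ ∨ V = ⊤)
    (S Smin : Finset ℕ) (hpSmin : p ∈ Smin) (hSmin : Smin ⊆ S) (hS : ∀ q ∈ S, q.Prime)
    (hmin : ∀ q : ℕ, q.Prime → q ≠ p → (q ∈ Smin ↔ ¬ ρbar.IsUnramifiedAt q)) :
    (∃ r : ℕ, ∀ n : ℕ, ∃ qv : Fin r → ℕ, Function.Injective qv ∧
      (∀ i, (qv i).Prime ∧ qv i ∉ S ∧ p ^ (n + 1) ∣ qv i - 1) ∧
      (∀ i, ∀ P : ValuationSubring (AlgebraicClosure ℚ), P.LiesOverPrime (qv i) →
        ∀ φ : AlgebraicClosure ℚ ≃ₐ[ℚ] AlgebraicClosure ℚ, P.IsFrobeniusAt φ (qv i) →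
          ∃ α β : ResidueField 𝒪, α ≠ β ∧ LinearMap.charpoly (ρbar.ρ φ) = (X - C α) * (X - C β)) ∧
      ∀ DQ : GaloisRep.DeformationRingData 𝒪 ρbar (fun _A _ _ _ ρ =>
          GaloisRep.strictOrdinaryCondition 𝒪 p (Smin ∪ Finset.univ.image qv) ρ ∧
            ∀ q ∈ Smin, q.Prime → q ≠ p → ρ.IsUnipotentOnInertiaAt q),
        ∃ γ : MvPowerSeries (Fin r) 𝒪 →ₐ[𝒪] DQ.R, Function.Surjective γ) ∧
    (∃ r : ℕ, ∀ n : ℕ, ∃ qv : Fin r → ℕ, Function.Injective qv ∧
      (∀ i, (qv i).Prime ∧ qv i ∉ S ∧ p ^ (n + 1) ∣ qv i - 1) ∧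
      (∀ i, ∀ P : ValuationSubring (AlgebraicClosure ℚ), P.LiesOverPrime (qv i) →
        ∀ φ : AlgebraicClosure ℚ ≃ₐ[ℚ] AlgebraicClosure ℚ, P.IsFrobeniusAt φ (qv i) →
          ∃ α β : ResidueField 𝒪, α ≠ β ∧ LinearMap.charpoly (ρbar.ρ φ) = (X - C α) * (X - C β)) ∧
      ∀ DQ : GaloisRep.DeformationRingData 𝒪 ρbar (fun _A _ _ _ ρ =>
          GaloisRep.flatCondition 𝒪 p (Smin ∪ Finset.univ.image qv) ρ ∧
            ∀ q ∈ Smin, q.Prime → q ≠ p → ρ.IsUnipotentOnInertiaAt q),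
        ∃ γ : MvPowerSeries (Fin r) 𝒪 →ₐ[𝒪] DQ.R, Function.Surjective γ) := by
  have hchar : CharP (ResidueField 𝒪) p := by
    have h0 : (p : ResidueField 𝒪) = 0 := by
      rw [← map_natCast (residue 𝒪), residue_eq_zero_iff]
      exact hp𝒪
    exact (CharP.charP_iff_prime_eq_zero Fact.out).mpr h0
  let _ : Algebra (ZMod p) (ResidueField 𝒪) := ZMod.algebra _ p
  have hs := FermatLib.MLT.TW56.isTWSetting hp2 habs hdet hTW hpSmin hmin
  obtain ⟨r, hr⟩ :=
    FermatLib.MLT.TW56.exists_primes hp2 habs hdet hsplit hTW S hpSmin hmin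
  have hfin : Finite (DualNumber (ResidueField 𝒪)) :=
    FermatLib.Galois.Deform.finite_dualNumber
  refine ⟨⟨r, fun n => ?_⟩, ⟨r, fun n => ?_⟩⟩
  · obtain ⟨qv, hinj, hnot, hS', hroots, hpl, hzero⟩ := hr n
    refine ⟨fun i => (qv i : ℕ), Subtype.val_injective.comp hinj,
      fun i => ⟨(qv i).2, hS' i⟩, hroots, fun DQ => ?_⟩
    obtain ⟨⟨hcyc, hord, hout⟩, hunip⟩ := DQ.isOfType
    refine FermatLib.MLT.TW56.exists_presentation_of_data DQ hp𝒪 hs hpSmin hmin hinj hnot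
      hpl hzero hcyc hout hunip (fun φ hφ => ?_) (fun π M hM hρ χ hd he => ?_)
    · exact ⟨⟨FermatLib.Galois.DeformLocal.detIsCyclotomic_baseChange _ hφ hcyc,
        FermatLib.MLT.isStrictOrdinaryAt_baseChangeAlong _ hφ hord,
        fun q hq hqS => FermatLib.Galois.DeformLocal.isUnramifiedAt_baseChange _ hφ (hout q hq hqS)⟩,
        fun q hq hq' hqp => FermatLib.Galois.DeformLocal.isUnipotentOnInertiaAt_baseChange _ hφ
          (hunip q hq hq' hqp)⟩
    · exact FermatLib.MLT.TW56.exists_strictOrdinary_bound π M hM _ hρ χ hd p Empty.elim hp2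
        (FermatLib.Galois.DeformLocal.detIsCyclotomic_of_isEquiv he hcyc)
        (FermatLib.MLT.isStrictOrdinaryAt_of_equiv he.some hord)
  · obtain ⟨qv, hinj, hnot, hS', hroots, hpl, hzero⟩ := hr n
    refine ⟨fun i => (qv i : ℕ), Subtype.val_injective.comp hinj,
      fun i => ⟨(qv i).2, hS' i⟩, hroots, fun DQ => ?_⟩
    obtain ⟨⟨hcyc, hflat, hout⟩, hunip⟩ := DQ.isOfType
    refine FermatLib.MLT.TW56.exists_presentation_of_data DQ hp𝒪 hs hpSmin hmin hinj hnot
      hpl hzero hcyc hout hunip (fun φ hφ => ?_) (fun π M hM hρ χ hd he => ?_)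
    · exact ⟨⟨FermatLib.Galois.DeformLocal.detIsCyclotomic_baseChange _ hφ hcyc,
        FermatLib.Galois.FlatModel.isFlatAt_baseChange _ hφ hflat,
        fun q hq hqS => FermatLib.Galois.DeformLocal.isUnramifiedAt_baseChange _ hφ (hout q hq hqS)⟩,
        fun q hq hq' hqp => FermatLib.Galois.DeformLocal.isUnipotentOnInertiaAt_baseChange _ hφ
          (hunip q hq hq' hqp)⟩
    · exact FermatLib.MLT.TW56.exists_flat_bound π M hM _ hρ χ hd p Empty.elim hp2
        (FermatLib.Galois.DeformLocal.detIsCyclotomic_of_isEquiv he hcyc)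
        (FermatLib.Galois.FlatModel.isFlatAt_of_isEquiv he hflat)

end Fermat.Agent.S56
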