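import Fermat.Statements.S58
import Fermat.Agent.Galois.Carayol58.Main
import Fermat.Agent.Galois.Carayol36.Vanishing
import Fermat.Agent.Galois.AttachmentProved
import Fermat.Agent.S35

/-!
# S58

Conductor–level matching: a semistable integral Weierstrass curve that is modular of some
cube-free level N divisible by all its bad primes, with irreducible mod-p representation for an
odd prime p with p² not dividing N, is modular of its conductor level.
-/

set_option autoImplicit false
set_option autoImplicit false
open WeierstrassCurve

namespace Fermat.Agent.S58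

theorem result
    (W : WeierstrassCurve ℤ) (hss : W.IsSemistableModel) (N : ℕ)
    (p : ℕ) [Fact p.Prime] (hp2 : p ≠ 2) (hirr : W.ModRepIsIrreducible p)
    (hp2N : ¬ p ^ 2 ∣ N)
    (hN : W.IsModularModelOfLevel N) (hbad : ∀ ℓ : ℕ, ℓ.Prime → (ℓ : ℤ) ∣ W.Δ → ℓ ∣ N)
    (hN3 : ∀ q : ℕ, q.Prime → ¬ q ^ 3 ∣ N) :
    W.IsModularModelOfLevel W.conductorLevel :=
  FermatLib.Galois.Carayol58.isModularModelOfLevel_conductorLevel
    FermatLib.Galois.Carayol36.vanishingAll FermatLib.Galois.padicAttachment
    Fermat.Agent.S35.result W hss N hN hbad hN3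

end Fermat.Agent.S58
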